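import Fermat.Agent.Jacobian.Glue.CurvePower

/-!
# A group scheme covered by a power of a proper curve

Over an algebraically closed field: a group scheme is separated; if a proper geometrically integral
scheme maps to it hitting every rational point then it is proper and geometrically connected, and
its points over algebraically closed fields lift.
-/

set_option autoImplicit false

noncomputable section

open CategoryTheory CategoryTheory.Limits AlgebraicGeometry
open MonoidalCategory CartesianMonoidalCategory
open scoped MonObj

namespace FermatAgent.Jacobian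

universe u

variable {k : Type u} [Field k] {J : Over (Spec (CommRingCat.of k))}

section Separated

variable (J) [GrpObj J]

/-- The difference `(x, y) ↦ x / y`. -/
def groupDiv : J ⊗ J ⟶ J := fst J J * (snd J J)⁻¹

/-- The diagonal of a group is the pullback of the unit along the difference. -/
theorem isPullback_groupDiv :
    IsPullback (lift (𝟙 J) (𝟙 J)) (toUnit J) (groupDiv J) η[J] := by
  have hw : lift (𝟙 J) (𝟙 J) ≫ groupDiv J = toUnit J ≫ η[J] := by
    rw [groupDiv, MonObj.comp_mul, GrpObj.comp_inv, lift_fst, lift_snd, mul_inv_cancel]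
    rfl
  refine IsPullback.of_isLimit (c := PullbackCone.mk _ _ hw) ?_
  refine PullbackCone.IsLimit.mk _ (fun s => s.fst ≫ fst J J) (fun s => ?_)
    (fun s => toUnit_unique _ _) (fun s m hm _ => by
      simp [← hm])
  have h : (s.fst ≫ fst J J) * (s.fst ≫ snd J J)⁻¹ = 1 := by
    rw [← GrpObj.comp_inv, ← MonObj.comp_mul]
    exact s.condition.trans (congrArg (· ≫ η[J]) (toUnit_unique s.snd (toUnit _)))
  have h' := mul_inv_eq_one.1 h
  ext
  · simp
  · simp [h']

/-- A group scheme over a field is separated. -/
theorem isSeparated_of_grpObj : IsSeparated J.hom := by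
  have h := (isPullback_groupDiv J).map (Over.forget _)
  have hη : IsClosedImmersion η[J].left :=
    isClosedImmersion_of_comp_eq_id (Y := Spec (CommRingCat.of k)) J.hom η[J].left
      (Over.w η[J])
  have hd : IsClosedImmersion (lift (𝟙 J) (𝟙 J)).left :=
    MorphismProperty.of_isPullback (P := @IsClosedImmersion) h.flip hη
  have he : (lift (𝟙 J) (𝟙 J)).left = pullback.diagonal J.hom := by
    apply pullback.hom_ext
    · rw [pullback.diagonal_fst]; exact congr_arg CommaMorphism.left (lift_fst (𝟙 J) (𝟙 J))
    · rw [pullback.diagonal_snd]; exact congr_arg CommaMorphism.left (lift_snd (𝟙 J) (𝟙 J))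
  exact ⟨he ▸ hd⟩

end Separated

section Covered

variable [IsAlgClosed k] {X : Over (Spec (CommRingCat.of k))} (a : X ⟶ J)
  [LocallyOfFiniteType J.hom] [IsProper X.hom] [IsSeparated J.hom]
  (ha : ∀ x : 𝟙_ _ ⟶ J, ∃ q : 𝟙_ _ ⟶ X, q ≫ a = x)

include ha

/-- A map hitting all rational points from a proper scheme is surjective. -/
theorem surjective_of_forall_point : Surjective a.left := by
  have : IsProper (a.left ≫ J.hom) := by rw [Over.w]; infer_instance
  have : IsProper a.left := IsProper.of_comp a.left J.hom
  have : JacobsonSpace J.left := LocallyOfFiniteType.jacobsonSpace J.hom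
  refine ⟨Set.range_eq_univ.1 (Set.eq_univ_of_univ_subset ?_)⟩
  rw [← closure_closedPoints]
  refine closure_minimal (fun x hx => ?_) a.left.isClosedMap.isClosed_range
  let p : 𝟙_ _ ⟶ J := Over.homMk (pointOfClosedPoint J.hom x hx) (pointOfClosedPoint_comp _ _ hx)
  obtain ⟨q, hq⟩ := ha p
  refine ⟨q.left (IsLocalRing.closedPoint k), ?_⟩
  refine (Scheme.Hom.comp_apply q.left a.left _).symm.trans ?_
  rw [show q.left ≫ a.left = p.left from congrArg CommaMorphism.left hq]
  exact pointOfClosedPoint_apply J.hom x hx _

theorem isProper_of_forall_point : IsProper J.hom := by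
  have := surjective_of_forall_point a ha
  have : UniversallyClosed (a.left ≫ J.hom) := by rw [Over.w]; infer_instance
  have := UniversallyClosed.of_comp_surjective a.left J.hom
  exact { }

/-- A covered group scheme is geometrically irreducible. -/
theorem geometricallyIrreducible_of_forall_point [GeometricallyIntegral X.hom] :
    GeometricallyIrreducible J.hom := by
  have := surjective_of_forall_point a ha
  refine ⟨geometrically_iff_of_isClosedUnderIsomorphisms.2 fun K _ y => ?_⟩
  have h₁ : IsIntegral (pullback X.hom y) :=
    GeometricallyIntegral.geometrically_isIntegral y _ _ (IsPullback.of_hasPullback _ _)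
  let e : pullback X.hom y ≅ pullback a.left (pullback.fst J.hom y) :=
    asIso (pullback.map X.hom y (a.left ≫ J.hom) y (𝟙 _) (𝟙 _) (𝟙 _) (by simp) (by simp)) ≪≫
      (pullbackRightPullbackFstIso J.hom y a.left).symm
  have := IsIntegral.of_isIso e.hom
  let s := pullback.snd a.left (pullback.fst J.hom y)
  have hs : Surjective s := inferInstance
  have hi := (IrreducibleSpace.isIrreducible_univ ↥(pullback a.left (pullback.fst J.hom y))).image s
    s.continuous.continuousOn
  rw [Set.image_univ, Set.range_eq_univ.2 s.surjective] at hi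
  exact (irreducibleSpace_def _).2 hi

theorem geometricallyConnected_of_forall_point [GeometricallyIntegral X.hom] :
    GeometricallyConnected J.hom := by
  have := geometricallyIrreducible_of_forall_point a ha
  refine ⟨fun K _ y Z fst snd h => ?_⟩
  have : IrreducibleSpace Z :=
    GeometricallyIrreducible.geometrically_irreducibleSpace y fst snd h
  infer_instance

/-- Points over algebraically closed fields lift. -/
theorem exists_lift_of_forall_point {K : Type u} [Field K] [IsAlgClosed K]
    (s : Spec (CommRingCat.of K) ⟶ J.left) :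
    ∃ s' : Spec (CommRingCat.of K) ⟶ X.left, s' ≫ a.left = s := by
  have := surjective_of_forall_point a ha
  have : LocallyOfFiniteType (a.left ≫ J.hom) := by rw [Over.w]; infer_instance
  have : LocallyOfFiniteType a.left := locallyOfFiniteType_of_comp a.left J.hom
  obtain ⟨x, hx⟩ := (pullback.snd a.left s).surjective (IsLocalRing.closedPoint K)
  have := LocallyOfFiniteType.jacobsonSpace (pullback.snd a.left s)
  obtain ⟨z, -, hz⟩ := nonempty_inter_closedPoints (Z := Set.univ) ⟨x, trivial⟩
    isOpen_univ.isLocallyClosed
  refine ⟨pointOfClosedPoint (pullback.snd a.left s) z hz ≫ pullback.fst a.left s, ?_⟩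
  rw [Category.assoc, pullback.condition, ← Category.assoc]
  exact (congrArg (· ≫ s) (pointOfClosedPoint_comp _ z hz)).trans (Category.id_comp s)

end Covered

section Sum

variable [GrpObj J] {C : Over (Spec (CommRingCat.of k))} (aj : C ⟶ J)

/-- The sum `C ^ n ⟶ J` of a map to a group. -/
def powSum : ∀ n, curvePower C n ⟶ J
  | 0 => η[J]
  | n + 1 => (fst C (curvePower C n) ≫ aj) * (snd C (curvePower C n) ≫ powSum n)

theorem exists_powSum_eq : ∀ (n : ℕ) (p : Fin n → (𝟙_ _ ⟶ C)),
    ∃ q : 𝟙_ _ ⟶ curvePower C n, q ≫ powSum aj n = (List.ofFn fun i => p i ≫ aj).prod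
  | 0, p => by
    refine ⟨𝟙 _, ?_⟩
    show 𝟙 _ ≫ η[J] = (1 : 𝟙_ _ ⟶ J)
    rw [Category.id_comp, MonObj.one_eq_one]
  | n + 1, p => by
    obtain ⟨q, hq⟩ := exists_powSum_eq n fun i => p i.succ
    refine ⟨(lift (p 0) q : 𝟙_ _ ⟶ C ⊗ curvePower C n), ?_⟩
    rw [List.ofFn_succ, List.prod_cons, ← hq]
    exact (MonObj.comp_mul (lift (p 0) q) _ _).trans (by simp)

variable [IsAlgClosed k] [IsIntegral C.left] [IsProper C.hom] [Smooth C.hom]
  [LocallyOfFiniteType J.hom] {N : ℕ}
  (hN : ∀ x : 𝟙_ _ ⟶ J, ∃ p : Fin N → (𝟙_ _ ⟶ C), x = (List.ofFn fun i => p i ≫ aj).prod)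

include hN

/-- A group scheme whose rational points are bounded sums from a proper curve is proper and
geometrically connected. -/
theorem isProper_and_geometricallyConnected_of_sum :
    IsProper J.hom ∧ GeometricallyConnected J.hom := by
  have := geometricallyIntegral_of_isAlgClosed C.hom
  have := geometricallyIntegral_curvePower C N
  have := isProper_curvePower C N
  have := isSeparated_of_grpObj J
  have ha : ∀ x : 𝟙_ _ ⟶ J, ∃ q, q ≫ powSum aj N = x := fun x => by
    obtain ⟨p, rfl⟩ := hN x
    exact exists_powSum_eq aj N p
  exact ⟨isProper_of_forall_point _ ha, geometricallyConnected_of_forall_point _ ha⟩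

omit [IsIntegral C.left] [Smooth C.hom] in
/-- Points of the group over algebraically closed fields lift to the power of the curve. -/
theorem exists_lift_powSum {K : Type u} [Field K] [IsAlgClosed K]
    (s : Spec (CommRingCat.of K) ⟶ J.left) :
    ∃ s' : Spec (CommRingCat.of K) ⟶ (curvePower C N).left, s' ≫ (powSum aj N).left = s := by
  have := isProper_curvePower C N
  have := isSeparated_of_grpObj J
  refine exists_lift_of_forall_point _ (fun x => ?_) s
  obtain ⟨p, rfl⟩ := hN x
  exact exists_powSum_eq aj N p

end Sum

end FermatAgent.Jacobian
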