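import Mathlib
import Fermat.Agent.Jacobian.Setup.TensorDomain

/-!
# Integral schemes over an algebraically closed field are geometrically integral
-/

set_option autoImplicit false

noncomputable section

open CategoryTheory CategoryTheory.Limits AlgebraicGeometry
open scoped TensorProduct

namespace FermatAgent.Jacobian

universe u

variable {k : Type u} [Field k] [IsAlgClosed k] {X : Scheme.{u}}

/-- The base change of an affine integral scheme over an algebraically closed field to a field
is integral. -/
theorem isIntegral_pullback_Spec {K : Type u} [Field K] [Algebra k K] (A : CommRingCat.{u})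
    [IsDomain A] (g : Spec A ⟶ Spec (CommRingCat.of k)) :
    IsIntegral (pullback g (Spec.map (CommRingCat.ofHom (algebraMap k K)))) := by
  obtain ⟨φ, rfl⟩ := Spec.map_surjective g
  let := φ.hom.toAlgebra
  have : IsDomain (A ⊗[k] K) := isDomain_tensorProduct A K
  have : IsIntegral (Spec (CommRingCat.of (A ⊗[k] K))) := inferInstance
  exact IsIntegral.of_isIso (pullbackSpecIso k A K).inv

/-- An integral scheme over an algebraically closed field is geometrically integral. -/
theorem geometricallyIntegral_of_isAlgClosed [IsIntegral X] (f : X ⟶ Spec (CommRingCat.of k)) :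
    GeometricallyIntegral f := by
  refine ⟨geometrically_iff_of_commRing.2 fun K _ _ Z fst snd h => ?_⟩
  suffices IsIntegral (pullback f (Spec.map (CommRingCat.ofHom (algebraMap k K)))) from
    IsIntegral.of_isIso h.isoPullback.inv
  set y := Spec.map (CommRingCat.ofHom (algebraMap k K))
  have : Surjective y := ⟨Function.surjective_to_subsingleton
    (α := Spec (CommRingCat.of K)) (β := Spec (CommRingCat.of k)) _⟩
  let 𝒲 : (pullback f y).OpenCover := X.affineCover.pullback₁ (pullback.fst f y)
  have hint : ∀ x : X.affineCover.I₀, 𝒲.X x → IsIntegral (𝒲.X x) := fun x p => by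
    have : Nonempty (X.affineCover.X x) := ⟨(pullback.snd (pullback.fst f y) (X.affineCover.f x)) p⟩
    have hi : IsIntegral (X.affineCover.X x) := isIntegral_of_isOpenImmersion (X.affineCover.f x)
    have : IsDomain (Γ(X.affineCover.X x, ⊤)) := inferInstance
    have := isIntegral_pullback_Spec (k := k) (K := K) Γ(X.affineCover.X x, ⊤)
      ((X.affineCover.X x).isoSpec.inv ≫ X.affineCover.f x ≫ f)
    let e : 𝒲.X x ≅ pullback ((X.affineCover.X x).isoSpec.inv ≫ X.affineCover.f x ≫ f) y :=
      pullbackSymmetry _ _ ≪≫ pullbackRightPullbackFstIso f y (X.affineCover.f x) ≪≫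
        asIso (pullback.map (X.affineCover.f x ≫ f) y ((X.affineCover.X x).isoSpec.inv ≫ X.affineCover.f x ≫ f) y
          (X.affineCover.X x).isoSpec.hom (𝟙 _) (𝟙 _) (by simp) (by simp))
    exact IsIntegral.of_isIso e.inv
  have hred : ∀ x : X.affineCover.I₀, IsReduced (𝒲.X x) := fun x => by
    rcases isEmpty_or_nonempty (𝒲.X x) with he | ⟨⟨p⟩⟩
    · apply +allowSynthFailures isReduced_of_isReduced_stalk
    · have := hint x p
      infer_instance
  have : IsReduced (pullback f y) := @IsReduced.of_openCover _ 𝒲 hred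
  have hne : Nonempty ↥(pullback f y) :=
    ⟨((pullback.fst f y).surjective (Classical.arbitrary X)).choose⟩
  have : PreirreducibleSpace ↥(pullback f y) := by
    refine PreirreducibleSpace.of_forall_nonempty_inter ?_
    rintro U V hU hV ⟨p, hp⟩ ⟨q, hq⟩
    obtain ⟨a, p', rfl⟩ := 𝒲.exists_eq p
    obtain ⟨b, q', rfl⟩ := 𝒲.exists_eq q
    let a : X.affineCover.I₀ := a
    let b : X.affineCover.I₀ := b
    have := hint a p'
    have := hint b q'
    obtain ⟨z, hz₁, hz₂⟩ := nonempty_preirreducible_inter (X := X) (X.affineCover.f a).opensRange.isOpen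
      (X.affineCover.f b).opensRange.isOpen ⟨_, Set.mem_range_self ((pullback.snd (pullback.fst f y) (X.affineCover.f a)) p')⟩
      ⟨_, Set.mem_range_self ((pullback.snd (pullback.fst f y) (X.affineCover.f b)) q')⟩
    obtain ⟨w, rfl⟩ := (pullback.fst f y).surjective z
    have hr : ∀ i, Set.range (𝒲.f i) = pullback.fst f y ⁻¹' Set.range (X.affineCover.f i) :=
      fun i => Scheme.Pullback.range_fst _ _
    have hwa : w ∈ Set.range (𝒲.f a) := by rw [hr]; exact hz₁
    have hwb : w ∈ Set.range (𝒲.f b) := by rw [hr]; exact hz₂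
    -- `U` meets the overlap inside the piece `a`, then `V` meets both inside the piece `b`
    obtain ⟨w₁, hw₁⟩ := hwa
    obtain ⟨r, hrU, hrb⟩ := nonempty_preirreducible_inter (hU.preimage (𝒲.f a).continuous)
      ((𝒲.f b).opensRange.isOpen.preimage (𝒲.f a).continuous) ⟨p', hp⟩
      ⟨w₁, by show (𝒲.f a) w₁ ∈ Set.range (𝒲.f b); rw [hw₁]; exact hwb⟩
    obtain ⟨r', hr'⟩ := hrb
    obtain ⟨s, hsU, hsV⟩ := nonempty_preirreducible_inter (hU.preimage (𝒲.f b).continuous)
      (hV.preimage (𝒲.f b).continuous) ⟨r', by show (𝒲.f b) r' ∈ U; rw [hr']; exact hrU⟩ ⟨q', hq⟩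
    exact ⟨_, hsU, hsV⟩
  have : IrreducibleSpace ↥(pullback f y) := ⟨hne⟩
  exact isIntegral_of_irreducibleSpace_of_isReduced _

end FermatAgent.Jacobian
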