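import Fermat.Prelude.Def_AlgebraicGeometry_RelPicardAlgEquivZeroCut
import Fermat.Agent.Jacobian.Glue.GeomIntegral

/-!
# Powers of a curve over an algebraically closed field
-/

set_option autoImplicit false

noncomputable section

open CategoryTheory CategoryTheory.Limits AlgebraicGeometry
open MonoidalCategory CartesianMonoidalCategory

namespace FermatAgent.Jacobian

universe u

variable {k : Type u} [Field k] (C : Over (Spec (CommRingCat.of k)))

/-- The fibre power `C ^ n`. -/
def curvePower : ℕ → Over (Spec (CommRingCat.of k))
  | 0 => 𝟙_ _
  | n + 1 => C ⊗ curvePower n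

theorem curvePower_succ (n : ℕ) : curvePower C (n + 1) = C ⊗ curvePower C n := rfl

theorem isProper_curvePower [IsProper C.hom] : ∀ n, IsProper (curvePower C n).hom
  | 0 => inferInstanceAs (IsProper (𝟙 _))
  | n + 1 => by
    have := isProper_curvePower n
    rw [curvePower_succ, Over.tensorObj_hom]
    infer_instance

/-- The tensor product with a geometrically integral object is geometrically integral. -/
theorem geometricallyIntegral_tensor [GeometricallyIntegral C.hom] [Flat C.hom]
    [UniversallyOpen C.hom] (X : Over (Spec (CommRingCat.of k))) [GeometricallyIntegral X.hom]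
    [LocallyOfFiniteType X.hom] : GeometricallyIntegral (C ⊗ X).hom := by
  refine ⟨fun K _ y Z fst snd h => ?_⟩
  rw [Over.tensorObj_hom] at h
  suffices IsIntegral (pullback (pullback.fst C.hom X.hom ≫ C.hom) y) from
    IsIntegral.of_isIso h.isoPullback.inv
  let e : pullback (pullback.fst C.hom X.hom ≫ C.hom) y ≅
      pullback C.hom (pullback.fst X.hom y ≫ X.hom) :=
    asIso (pullback.map (pullback.fst C.hom X.hom ≫ C.hom) y (pullback.snd C.hom X.hom ≫ X.hom) y
      (𝟙 _) (𝟙 _) (𝟙 _) (by simp [pullback.condition]) (by simp)) ≪≫
      (pullbackRightPullbackFstIso X.hom y (pullback.snd C.hom X.hom)).symm ≪≫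
      pullbackLeftPullbackSndIso C.hom X.hom (pullback.fst X.hom y)
  have : IsIntegral (pullback X.hom y) :=
    GeometricallyIntegral.geometrically_isIntegral y _ _ (IsPullback.of_hasPullback _ _)
  have : IsLocallyNoetherian (pullback X.hom y) :=
    LocallyOfFiniteType.isLocallyNoetherian (pullback.snd X.hom y)
  exact IsIntegral.of_isIso e.inv

theorem geometricallyIntegral_curvePower [GeometricallyIntegral C.hom] [IsProper C.hom]
    [Flat C.hom] [UniversallyOpen C.hom] : ∀ n, GeometricallyIntegral (curvePower C n).hom
  | 0 => AlgebraicGeometry.RelPicard.geometricallyIntegral_id_Spec k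
  | n + 1 => by
    have := geometricallyIntegral_curvePower n
    have := isProper_curvePower C n
    rw [curvePower_succ]
    exact geometricallyIntegral_tensor C _

end FermatAgent.Jacobian
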